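import Fermat.Agent.LT.T6.H964.SmoothIci

/-!
# Row LT, tower T6: INJECTIVITY of the Abel transform on continuous functions
(helper964, OFF-MAIN, Mathlib only)

`abelT_eq_zero_imp964` : `g` continuous, vanishing above `R`, `(A g)(ρ) = 0` for all `ρ ≥ a`
`⟹ g = 0` on `[a, ∞)`.  (No differentiability of `g`: the inversion formula is applied to the
primitive `P(x) = ∫_x^R g`, `A (A P') = -π P`.)
-/

set_option autoImplicit false

open MeasureTheory Set Filter Topology Real
open scoped ContDiff

noncomputable section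

namespace Fermat.Agent.LT.T6.H964

/-- The primitive `P(x) = ∫_x^R g`. -/
def prim964 (R : ℝ) (g : ℝ → ℂ) (x : ℝ) : ℂ := ∫ t in x..R, g t

theorem hasDerivAt_prim964 {g : ℝ → ℂ} (hg : Continuous g) (R x : ℝ) :
    HasDerivAt (prim964 R g) (-g x) x :=
  intervalIntegral.integral_hasDerivAt_left (hg.intervalIntegrable _ _)
    (hg.stronglyMeasurableAtFilter _ _) hg.continuousAt

theorem deriv_prim964 {g : ℝ → ℂ} (hg : Continuous g) (R : ℝ) :
    deriv (prim964 R g) = fun x => -g x :=
  funext fun x => (hasDerivAt_prim964 hg R x).deriv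

theorem contDiff_prim964 {g : ℝ → ℂ} (hg : Continuous g) (R : ℝ) :
    ContDiff ℝ 1 (prim964 R g) := by
  rw [contDiff_one_iff_deriv]
  refine ⟨fun x => (hasDerivAt_prim964 hg R x).differentiableAt, ?_⟩
  rw [deriv_prim964 hg R]
  exact hg.neg

theorem prim_vanishesAbove964 {R : ℝ} {g : ℝ → ℂ} (hv : VanishesAbove964 R g) :
    VanishesAbove964 R (prim964 R g) := by
  intro x hx
  unfold prim964
  rw [intervalIntegral.integral_symm, intervalIntegral.integral_of_le hx.le,
    setIntegral_eq_zero_of_forall_eq_zero (fun t ht => hv t ht.1), neg_zero]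

theorem abelT_neg964 (g : ℝ → ℂ) (r : ℝ) : abelT964 (fun x => -g x) r = -abelT964 g r := by
  unfold abelT964
  exact integral_neg _

/-- **Injectivity of the Abel transform** on continuous functions vanishing near `+∞`. -/
theorem abelT_eq_zero_imp964 {R a : ℝ} {g : ℝ → ℂ} (hg : Continuous g)
    (hv : VanishesAbove964 R g) (h0 : ∀ ρ, a ≤ ρ → abelT964 g ρ = 0) :
    ∀ ρ, a ≤ ρ → g ρ = 0 := by
  have hP1 := contDiff_prim964 hg R
  have hPv := prim_vanishesAbove964 hv
  have hd := deriv_prim964 hg R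
  have hP0 : ∀ ρ, a ≤ ρ → prim964 R g ρ = (fun _ : ℝ => (0 : ℂ)) ρ := by
    intro ρ hρ
    have h1 := abelT_abelT_deriv964 hP1 hPv ρ
    have h2 : abelT964 (abelT964 (deriv (prim964 R g))) ρ = 0 := by
      have e : ∀ x, a ≤ x → abelT964 (deriv (prim964 R g)) x = (fun _ : ℝ => (0 : ℂ)) x := by
        intro x hx
        rw [hd, abelT_neg964, h0 x hx, neg_zero]
      rw [abelT_congr_Ici964 e ρ hρ]
      unfold abelT964
      simp
    rw [h2] at h1
    have hπ : (π : ℂ) ≠ 0 := by exact_mod_cast Real.pi_ne_zero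
    have h3 : (π : ℂ) * prim964 R g ρ = 0 := by linear_combination h1
    rcases mul_eq_zero.mp h3 with h | h
    · exact absurd h hπ
    · exact h
  intro ρ hρ
  have h3 := deriv_eq_of_eqOn_Ici964 (h := prim964 R g) (h' := fun _ => (0 : ℂ))
    (hasDerivAt_prim964 hg R ρ).differentiableAt (differentiableAt_const _) hP0 hρ
  rw [hd] at h3
  simpa using h3

end Fermat.Agent.LT.T6.H964
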