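import Fermat.Agent.LT.T6.H830.InjSpec
import Fermat.Agent.LT.T6.H964.AbelInj

/-!
# Row LT, tower T6, leaf T6.21.6 `AbelInj1C` (cut of helper830) — SPARE proof (helper964)

OFF-MAIN.  `abelInj1C964 : H830.AbelInj1C` VERBATIM against
`LT/T6/H830/InjSpec.lean` (sha256 065bae8ee89d57b8, helper830@4a7e5e87a; byte-identical copy,
with `HCSpec` c3e7d846, `SpecArch` 003240b2, `Spec` 8c5f2ae7).

Route: `G(ρ) = T(arcosh (max ρ 1))`; for `n = 0` the hypothesis is `(A G)(cosh r) = 0`, for
`n = ±1` the imaginary part of the phase is odd in `x` and the hypothesis is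
`(A G₁)(cosh r) = 0`, `G₁ = G / √((ρ+1)/2)`; injectivity of the Abel transform
(`abelT_eq_zero_imp964`).
-/

set_option autoImplicit false

open MeasureTheory Set Filter Topology Real
open scoped ContDiff

noncomputable section

namespace Fermat.Agent.LT.T6.H964

open Fermat.Agent.LT.T6 Fermat.Agent.LT.T6.H830

theorem arcosh830_eq964 (ρ : ℝ) : arcosh830 ρ = Real.arcosh ρ := rfl

/-- The scaling factor `a = √(e^r / 2)`: `rhoRX r x = cosh r + (a x)²`. -/
def scl964 (r : ℝ) : ℝ := Real.sqrt (Real.exp r / 2)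

theorem scl_pos964 (r : ℝ) : 0 < scl964 r :=
  Real.sqrt_pos.mpr (by positivity)

theorem rhoRX_eq964 (r x : ℝ) : rhoRX r x = Real.cosh r + (scl964 r * x) ^ 2 := by
  unfold rhoRX scl964
  rw [mul_pow, Real.sq_sqrt (by positivity)]
  ring

theorem one_le_rhoRX964 (r x : ℝ) : 1 ≤ rhoRX r x := by
  rw [rhoRX_eq964]
  have := Real.one_le_cosh r
  have := sq_nonneg (scl964 r * x)
  linarith

theorem rhoRX_neg964 (r x : ℝ) : rhoRX r (-x) = rhoRX r x := by
  unfold rhoRX
  ring

/-- The substitution `u = a x`. -/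
theorem integral_rhoRX964 (F : ℝ → ℂ) (r : ℝ) :
    ∫ x : ℝ, F (rhoRX r x) = |(scl964 r)⁻¹| • abelT964 F (Real.cosh r) := by
  have h := Measure.integral_comp_mul_left (fun u : ℝ => F (Real.cosh r + u ^ 2)) (scl964 r)
  unfold abelT964
  rw [← h]
  congr 1
  funext x
  rw [rhoRX_eq964]

theorem abelT_zero_of_integral964 {F : ℝ → ℂ} (h : ∀ r : ℝ, ∫ x : ℝ, F (rhoRX r x) = 0) :
    ∀ ρ, 1 ≤ ρ → abelT964 F ρ = 0 := by
  intro ρ hρ
  have h1 := h (Real.arcosh ρ)
  rw [integral_rhoRX964, Real.cosh_arcosh hρ] at h1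
  have hne : |(scl964 (Real.arcosh ρ))⁻¹| ≠ 0 :=
    abs_ne_zero.mpr (inv_ne_zero (scl_pos964 _).ne')
  rcases smul_eq_zero.mp h1 with h2 | h2
  · exact absurd h2 hne
  · exact h2

/-- The radial profile `G(ρ) = T(arcosh (max ρ 1))`. -/
def profile964 (T : ℝ → ℂ) (ρ : ℝ) : ℂ := T (Real.arcosh (max ρ 1))

theorem continuous_profile964 {T : ℝ → ℂ} (hT : Continuous T) : Continuous (profile964 T) := by
  have h1 : Continuous (fun ρ : ℝ => Real.arcosh (max ρ 1)) :=
    Real.continuousOn_arcosh.comp_continuous (continuous_id.max continuous_const)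
      (fun ρ => le_max_right ρ 1)
  exact hT.comp h1

theorem profile_rhoRX964 (T : ℝ → ℂ) (r x : ℝ) :
    T (arcosh830 (rhoRX r x)) = profile964 T (rhoRX r x) := by
  unfold profile964
  rw [max_eq_left (one_le_rhoRX964 r x), arcosh830_eq964]

theorem profile_cosh964 (T : ℝ → ℂ) {t : ℝ} (ht : 0 ≤ t) : profile964 T (Real.cosh t) = T t := by
  unfold profile964
  rw [max_eq_left (Real.one_le_cosh t), Real.arcosh_cosh ht]

theorem profile_vanishesAbove964 {T : ℝ → ℂ} {M : ℝ} (hM : ∀ t : ℝ, M < t → T t = 0) :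
    VanishesAbove964 (Real.cosh (max M 0)) (profile964 T) := by
  intro ρ hρ
  have hρ1 : 1 ≤ ρ := le_trans (Real.one_le_cosh _) hρ.le
  unfold profile964
  rw [max_eq_left hρ1]
  apply hM
  have h1 : Real.cosh (max M 0) < Real.cosh (Real.arcosh ρ) := by rwa [Real.cosh_arcosh hρ1]
  rw [Real.cosh_lt_cosh, abs_of_nonneg (le_max_right M 0),
    abs_of_nonneg (Real.arcosh_nonneg hρ1)] at h1
  exact lt_of_le_of_lt (le_max_left M 0) h1

/-- The denominator `√((max ρ 1 + 1)/2)` (`= |holPart|` up to the centre). -/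
def den964 (ρ : ℝ) : ℝ := Real.sqrt ((max ρ 1 + 1) / 2)

theorem den_pos964 (ρ : ℝ) : 0 < den964 ρ := by
  unfold den964
  apply Real.sqrt_pos.mpr
  have := le_max_right ρ 1
  linarith

theorem continuous_den964 : Continuous den964 := by
  unfold den964
  fun_prop

/-- `G₁ = G / √((ρ + 1)/2)`. -/
def profile1_964 (T : ℝ → ℂ) (ρ : ℝ) : ℂ := profile964 T ρ / ((den964 ρ : ℝ) : ℂ)

theorem den_ne964 (ρ : ℝ) : ((den964 ρ : ℝ) : ℂ) ≠ 0 := by
  exact_mod_cast (den_pos964 ρ).ne'

theorem continuous_profile1_964 {T : ℝ → ℂ} (hT : Continuous T) :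
    Continuous (profile1_964 T) := by
  unfold profile1_964
  exact (continuous_profile964 hT).div (Complex.continuous_ofReal.comp continuous_den964)
    den_ne964

theorem profile1_vanishesAbove964 {T : ℝ → ℂ} {M : ℝ} (hM : ∀ t : ℝ, M < t → T t = 0) :
    VanishesAbove964 (Real.cosh (max M 0)) (profile1_964 T) := by
  intro ρ hρ
  unfold profile1_964
  rw [profile_vanishesAbove964 hM ρ hρ, zero_div]

theorem den_rhoRX964 (r x : ℝ) : den964 (rhoRX r x) = Real.sqrt ((rhoRX r x + 1) / 2) := by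
  unfold den964
  rw [max_eq_left (one_le_rhoRX964 r x)]

/-- `|A|² = (ρ + 1)/2`. -/
theorem den_sq964 (r x : ℝ) :
    den964 (rhoRX r x) ^ 2 = Real.cosh (r / 2) ^ 2 + (Real.exp (r / 2) * x / 2) ^ 2 := by
  rw [den_rhoRX964, Real.sq_sqrt (by have := one_le_rhoRX964 r x; linarith)]
  unfold rhoRX
  have h1 : Real.cosh r = Real.cosh (r / 2) ^ 2 + Real.sinh (r / 2) ^ 2 := by
    rw [← Real.cosh_two_mul]
    congr 1
    ring
  have h2 := Real.cosh_sq (r / 2)
  have h3 : Real.exp r = Real.exp (r / 2) ^ 2 := by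
    rw [← Real.exp_nat_mul]
    congr 1
    push_cast
    ring
  rw [h1, h3]
  nlinarith [h2]

theorem wph_zero964 (r x : ℝ) : wph 0 r x = 1 := by
  unfold wph
  exact zpow_zero _

theorem wph_one964 (r x : ℝ) :
    wph 1 r x = (((Real.cosh (r / 2) : ℝ) : ℂ) + ((Real.exp (r / 2) * x / 2 : ℝ) : ℂ) * Complex.I) /
      ((den964 (rhoRX r x) : ℝ) : ℂ) := by
  unfold wph
  rw [zpow_one, den_rhoRX964]

theorem wph_neg_one964 (r x : ℝ) :
    wph (-1) r x = (((Real.cosh (r / 2) : ℝ) : ℂ) - ((Real.exp (r / 2) * x / 2 : ℝ) : ℂ) * Complex.I) /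
      ((den964 (rhoRX r x) : ℝ) : ℂ) := by
  unfold wph
  rw [zpow_neg_one, ← den_rhoRX964, inv_div]
  have hd := den_ne964 (rhoRX r x)
  have hsq : (((den964 (rhoRX r x) : ℝ) : ℂ)) ^ 2 = ((Real.cosh (r / 2) : ℝ) : ℂ) ^ 2 +
      ((Real.exp (r / 2) * x / 2 : ℝ) : ℂ) ^ 2 := by
    exact_mod_cast congrArg (fun t : ℝ => (t : ℂ)) (den_sq964 r x)
  have hne : ((Real.cosh (r / 2) : ℝ) : ℂ) + ((Real.exp (r / 2) * x / 2 : ℝ) : ℂ) * Complex.I ≠ 0 := by
    intro h
    have h1 := congrArg Complex.re h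
    simp only [Complex.add_re, Complex.ofReal_re, Complex.mul_re, Complex.I_re, Complex.I_im,
      Complex.ofReal_im, mul_zero, mul_one, add_zero, Complex.zero_re, sub_self] at h1
    exact (Real.cosh_pos (r / 2)).ne' h1
  rw [div_eq_div_iff hne hd]
  linear_combination hsq + (((Real.exp (r / 2) * x / 2 : ℝ) : ℂ)) ^ 2 * Complex.I_sq

/-- The integrand `x ↦ F(ρ(r, x))` is integrable. -/
theorem integrable_rhoRX964 {F : ℝ → ℂ} {R : ℝ} (hF : Continuous F) (hv : VanishesAbove964 R F)
    (r : ℝ) : Integrable (fun x : ℝ => F (rhoRX r x)) := by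
  have h1 := (integrable_integrand964 hF hv (Real.cosh r)).comp_mul_left' (scl_pos964 r).ne'
  refine h1.congr (Eventually.of_forall fun x => ?_)
  simp only [rhoRX_eq964]

theorem hasCompactSupport_rhoRX964 {F : ℝ → ℂ} {R : ℝ} (hv : VanishesAbove964 R F) (r : ℝ) :
    HasCompactSupport (fun x : ℝ => F (rhoRX r x)) := by
  have h1 := (hasCompactSupport_integrand964 hv (Real.cosh r)).comp_isClosedEmbedding
    (Homeomorph.mulLeft₀ (scl964 r) (scl_pos964 r).ne').isClosedEmbedding
  have e : (fun x : ℝ => F (rhoRX r x)) =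
      (fun u : ℝ => F (Real.cosh r + u ^ 2)) ∘ (Homeomorph.mulLeft₀ (scl964 r) (scl_pos964 r).ne') := by
    funext x
    simp only [Function.comp_apply, Homeomorph.coe_mulLeft₀, rhoRX_eq964]
  rw [e]
  exact h1

theorem continuous_rhoRX964 (r : ℝ) : Continuous (fun x : ℝ => rhoRX r x) := by
  unfold rhoRX
  fun_prop

/-- The odd part integrates to zero. -/
theorem integral_odd964 (F : ℝ → ℂ) (r : ℝ) :
    ∫ x : ℝ, (x : ℂ) * F (rhoRX r x) = 0 := by
  have h1 := integral_neg_eq_self (fun x : ℝ => (x : ℂ) * F (rhoRX r x)) volume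
  have h2 : (fun x : ℝ => ((-x : ℝ) : ℂ) * F (rhoRX r (-x))) =
      fun x : ℝ => -((x : ℂ) * F (rhoRX r x)) := by
    funext x
    rw [rhoRX_neg964]
    push_cast
    ring
  rw [h2, integral_neg] at h1
  linear_combination (-(1 / 2 : ℂ)) * h1

/-- The common computation for `n = ±1` (`ε = ±1`). -/
theorem integral_wt_one964 {T : ℝ → ℂ} (hT : Continuous T) {M : ℝ}
    (hM : ∀ t : ℝ, M < t → T t = 0) (ε : ℂ) (r : ℝ) :
    ∫ x : ℝ, ((((Real.cosh (r / 2) : ℝ) : ℂ) + ε * (((Real.exp (r / 2) * x / 2 : ℝ) : ℂ) * Complex.I)) /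
      ((den964 (rhoRX r x) : ℝ) : ℂ)) * profile964 T (rhoRX r x)
      = ((Real.cosh (r / 2) : ℝ) : ℂ) * ∫ x : ℝ, profile1_964 T (rhoRX r x) := by
  have hc1 := continuous_profile1_964 hT
  have hv1 := profile1_vanishesAbove964 (T := T) hM
  have hI1 : Integrable (fun x : ℝ => ((Real.cosh (r / 2) : ℝ) : ℂ) * profile1_964 T (rhoRX r x)) :=
    (integrable_rhoRX964 hc1 hv1 r).const_mul _
  have hcont : Continuous (fun x : ℝ => (x : ℂ) * profile1_964 T (rhoRX r x)) :=
    Complex.continuous_ofReal.mul (hc1.comp (continuous_rhoRX964 r))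
  have hI2 : Integrable (fun x : ℝ => (ε * ((Real.exp (r / 2) / 2 : ℝ) : ℂ) * Complex.I) *
      ((x : ℂ) * profile1_964 T (rhoRX r x))) :=
    (hcont.integrable_of_hasCompactSupport
      ((hasCompactSupport_rhoRX964 hv1 r).mul_left)).const_mul _
  have e : (fun x : ℝ => ((((Real.cosh (r / 2) : ℝ) : ℂ) +
      ε * (((Real.exp (r / 2) * x / 2 : ℝ) : ℂ) * Complex.I)) /
      ((den964 (rhoRX r x) : ℝ) : ℂ)) * profile964 T (rhoRX r x)) =
      fun x : ℝ => ((Real.cosh (r / 2) : ℝ) : ℂ) * profile1_964 T (rhoRX r x) +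
        (ε * ((Real.exp (r / 2) / 2 : ℝ) : ℂ) * Complex.I) *
          ((x : ℂ) * profile1_964 T (rhoRX r x)) := by
    funext x
    unfold profile1_964
    have hd := den_ne964 (rhoRX r x)
    field_simp
    push_cast
    ring
  rw [e, integral_add hI1 hI2, integral_const_mul, integral_const_mul, integral_odd964,
    mul_zero, add_zero]

/-- **T6.21.6 `AbelInj1C`** (cut of helper830), VERBATIM. -/
theorem abelInj1C964 : H830.AbelInj1C := by
  intro n hn T hT hMex hint t ht
  obtain ⟨M, hM⟩ := hMex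
  have hGc := continuous_profile964 hT
  have hGv := profile_vanishesAbove964 (T := T) hM
  have key : ∀ ρ, 1 ≤ ρ → profile964 T ρ = 0 := by
    rcases hn with rfl | rfl | rfl
    · -- weight 0
      refine abelT_eq_zero_imp964 hGc hGv (abelT_zero_of_integral964 fun r => ?_)
      have h1 := hint r
      simp only [wph_zero964, one_mul, profile_rhoRX964] at h1
      exact h1
    · -- weight 1
      have h0 : ∀ ρ, 1 ≤ ρ → profile1_964 T ρ = 0 := by
        refine abelT_eq_zero_imp964 (continuous_profile1_964 hT)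
          (profile1_vanishesAbove964 hM) (abelT_zero_of_integral964 fun r => ?_)
        have h1 := hint r
        simp only [wph_one964, profile_rhoRX964] at h1
        have h2 := integral_wt_one964 hT hM 1 r
        simp only [one_mul] at h2
        rw [h1] at h2
        rcases mul_eq_zero.mp h2.symm with h3 | h3
        · exact absurd h3 (by exact_mod_cast (Real.cosh_pos (r / 2)).ne')
        · exact h3
      intro ρ hρ
      have := h0 ρ hρ
      unfold profile1_964 at this
      rcases div_eq_zero_iff.mp this with h | h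
      · exact h
      · exact absurd h (den_ne964 ρ)
    · -- weight -1
      have h0 : ∀ ρ, 1 ≤ ρ → profile1_964 T ρ = 0 := by
        refine abelT_eq_zero_imp964 (continuous_profile1_964 hT)
          (profile1_vanishesAbove964 hM) (abelT_zero_of_integral964 fun r => ?_)
        have h1 := hint r
        simp only [wph_neg_one964, profile_rhoRX964] at h1
        have h2 := integral_wt_one964 hT hM (-1) r
        simp only [neg_one_mul, ← sub_eq_add_neg] at h2
        rw [h1] at h2
        rcases mul_eq_zero.mp h2.symm with h3 | h3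
        · exact absurd h3 (by exact_mod_cast (Real.cosh_pos (r / 2)).ne')
        · exact h3
      intro ρ hρ
      have := h0 ρ hρ
      unfold profile1_964 at this
      rcases div_eq_zero_iff.mp this with h | h
      · exact h
      · exact absurd h (den_ne964 ρ)
  rw [← profile_cosh964 T ht]
  exact key _ (Real.one_le_cosh t)

end Fermat.Agent.LT.T6.H964
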