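import Mathlib

/-!
# Row LT, tower T6, leaf T6.24 (part 1): the Abel transform `(A g)(r) = ∫_ℝ g(r + u²) du`
(helper964, OFF-MAIN, Mathlib only)

For `g : ℝ → ℂ` continuous and vanishing above `R` (`VanishesAbove964 R g`):

* `abelT964 g r = ∫ u, g (r + u ^ 2)`; the integrand is continuous with compact support;
* `abelT_vanishesAbove964` : `A g` vanishes above `R`;
* `abelT_congr_Ici964`     : `(A g)(r)` depends only on `g` on `[r, ∞)`;
* `continuous_abelT964`, `hasDerivAt_abelT964`, `deriv_abelT964` (`(A g)' = A (g')`),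
  `contDiff_abelT964` : `A` preserves `C^n` for every `n` (`n = ∞` included).

Reference: Helgason, *Groups and Geometric Analysis*, Ch. I §4 (Abel's integral equation);
memo `coord/LT-T6-interface.md` (helper22) v4, "Why (2)".
-/

set_option autoImplicit false

open MeasureTheory Set Filter Topology
open scoped ContDiff

noncomputable section

namespace Fermat.Agent.LT.T6.H964

/-- `g` vanishes on `(R, ∞)`. -/
def VanishesAbove964 (R : ℝ) (g : ℝ → ℂ) : Prop := ∀ x, R < x → g x = 0

/-- The Abel transform `(A g)(r) = ∫_ℝ g(r + u²) du`. -/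
def abelT964 (g : ℝ → ℂ) (r : ℝ) : ℂ := ∫ u : ℝ, g (r + u ^ 2)

theorem VanishesAbove964.mono {R R' : ℝ} {g : ℝ → ℂ} (h : VanishesAbove964 R g) (hR : R ≤ R') :
    VanishesAbove964 R' g := fun x hx => h x (lt_of_le_of_lt hR hx)

theorem VanishesAbove964.deriv {R : ℝ} {g : ℝ → ℂ} (h : VanishesAbove964 R g) :
    VanishesAbove964 R (deriv g) := by
  intro x hx
  have : g =ᶠ[𝓝 x] fun _ => (0 : ℂ) := by
    filter_upwards [Ioi_mem_nhds hx] with y hy using h y hy
  rw [this.deriv_eq]
  simp

theorem VanishesAbove964.smul {R : ℝ} {g : ℝ → ℂ} (h : VanishesAbove964 R g) (c : ℂ) :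
    VanishesAbove964 R (fun x => c * g x) := fun x hx => by simp [h x hx]

/-- The integrand vanishes for `c < |u|` as soon as `R - r ≤ c ^ 2`. -/
theorem integrand_eq_zero964 {R : ℝ} {g : ℝ → ℂ} (h : VanishesAbove964 R g) {r c u : ℝ}
    (hc : 0 ≤ c) (hrc : R - r ≤ c ^ 2) (hu : c < |u|) : g (r + u ^ 2) = 0 := by
  apply h
  have h1 : c ^ 2 < u ^ 2 := by
    rw [← sq_abs u]
    exact pow_lt_pow_left₀ hu hc two_ne_zero
  linarith

/-- A radius which works for all `r ≥ a`. -/
def rad964 (R a : ℝ) : ℝ := Real.sqrt (max (R - a) 0)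

theorem rad_nonneg964 (R a : ℝ) : 0 ≤ rad964 R a := Real.sqrt_nonneg _

theorem le_rad_sq964 (R a r : ℝ) (har : a ≤ r) : R - r ≤ rad964 R a ^ 2 := by
  unfold rad964
  rw [Real.sq_sqrt (le_max_right _ _)]
  exact le_trans (by linarith) (le_max_left _ _)

theorem integrand_eq_zero_of_rad964 {R : ℝ} {g : ℝ → ℂ} (h : VanishesAbove964 R g) {a r u : ℝ}
    (har : a ≤ r) (hu : u ∉ Icc (-rad964 R a) (rad964 R a)) : g (r + u ^ 2) = 0 := by
  apply integrand_eq_zero964 h (rad_nonneg964 R a) (le_rad_sq964 R a r har)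
  by_contra hcon
  rw [not_lt] at hcon
  exact hu (abs_le.mp hcon)

theorem hasCompactSupport_integrand964 {R : ℝ} {g : ℝ → ℂ} (h : VanishesAbove964 R g) (r : ℝ) :
    HasCompactSupport (fun u : ℝ => g (r + u ^ 2)) :=
  HasCompactSupport.intro isCompact_Icc
    (fun _ hu => integrand_eq_zero_of_rad964 h (le_refl r) hu)

theorem continuous_integrand964 {g : ℝ → ℂ} (hg : Continuous g) (r : ℝ) :
    Continuous (fun u : ℝ => g (r + u ^ 2)) := by fun_prop

theorem integrable_integrand964 {R : ℝ} {g : ℝ → ℂ} (hg : Continuous g)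
    (h : VanishesAbove964 R g) (r : ℝ) : Integrable (fun u : ℝ => g (r + u ^ 2)) :=
  (continuous_integrand964 hg r).integrable_of_hasCompactSupport
    (hasCompactSupport_integrand964 h r)

/-- `A g` vanishes above `R`. -/
theorem abelT_vanishesAbove964 {R : ℝ} {g : ℝ → ℂ} (h : VanishesAbove964 R g) :
    VanishesAbove964 R (abelT964 g) := by
  intro r hr
  unfold abelT964
  have : (fun u : ℝ => g (r + u ^ 2)) = fun _ => (0 : ℂ) := by
    funext u
    apply h
    have := sq_nonneg u
    linarith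
  rw [this]
  simp

/-- `(A g)(r)` depends only on the values of `g` on `[r, ∞)`. -/
theorem abelT_congr_Ici964 {g g' : ℝ → ℂ} {a : ℝ} (h : ∀ x, a ≤ x → g x = g' x) (r : ℝ)
    (hr : a ≤ r) : abelT964 g r = abelT964 g' r := by
  unfold abelT964
  congr 1
  funext u
  apply h
  have := sq_nonneg u
  linarith

theorem abelT_smul964 (g : ℝ → ℂ) (c : ℂ) (r : ℝ) :
    abelT964 (fun x => c * g x) r = c * abelT964 g r := by
  unfold abelT964
  exact integral_const_mul c _

theorem abelT_add964 {R : ℝ} {g h : ℝ → ℂ} (hg : Continuous g) (hh : Continuous h)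
    (vg : VanishesAbove964 R g) (vh : VanishesAbove964 R h) (r : ℝ) :
    abelT964 (fun x => g x + h x) r = abelT964 g r + abelT964 h r := by
  unfold abelT964
  exact integral_add (integrable_integrand964 hg vg r) (integrable_integrand964 hh vh r)

/-- A continuous function vanishing above `R` is bounded on every `[a, ∞)`. -/
theorem exists_bound_Ici964 {R : ℝ} {g : ℝ → ℂ} (hg : Continuous g)
    (h : VanishesAbove964 R g) (a : ℝ) : ∃ M : ℝ, 0 ≤ M ∧ ∀ x, a ≤ x → ‖g x‖ ≤ M := by
  obtain ⟨M, hM⟩ := (isCompact_Icc (a := a) (b := max a R)).exists_bound_of_continuousOn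
    hg.continuousOn
  refine ⟨max M 0, le_max_right _ _, fun x hx => ?_⟩
  by_cases hxR : x ≤ max a R
  · exact le_trans (hM x ⟨hx, hxR⟩) (le_max_left _ _)
  · rw [not_le] at hxR
    rw [h x (lt_of_le_of_lt (le_max_right _ _) hxR)]
    simp

/-- The dominating function near `r₀`. -/
def bound964 (M R r₀ : ℝ) (u : ℝ) : ℝ :=
  (Icc (-rad964 R (r₀ - 1)) (rad964 R (r₀ - 1))).indicator (fun _ => M) u

theorem integrable_bound964 (M R r₀ : ℝ) : Integrable (bound964 M R r₀) := by
  unfold bound964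
  rw [integrable_indicator_iff measurableSet_Icc]
  exact integrableOn_const (by simp) (by simp)

theorem norm_le_bound964 {R : ℝ} {g : ℝ → ℂ} (h : VanishesAbove964 R g) {M r₀ : ℝ}
    (_hM0 : 0 ≤ M) (hM : ∀ x, r₀ - 1 ≤ x → ‖g x‖ ≤ M) {r : ℝ} (hr : r ∈ Metric.ball r₀ 1)
    (u : ℝ) : ‖g (r + u ^ 2)‖ ≤ bound964 M R r₀ u := by
  have hr' : r₀ - 1 ≤ r := by
    rw [Metric.mem_ball, Real.dist_eq, abs_lt] at hr
    linarith [hr.1]
  unfold bound964
  by_cases hu : u ∈ Icc (-rad964 R (r₀ - 1)) (rad964 R (r₀ - 1))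
  · rw [indicator_of_mem hu]
    apply hM
    have := sq_nonneg u
    linarith
  · rw [indicator_of_notMem hu, integrand_eq_zero_of_rad964 h hr' hu]
    simp

/-- `A g` is continuous. -/
theorem continuous_abelT964 {R : ℝ} {g : ℝ → ℂ} (hg : Continuous g)
    (h : VanishesAbove964 R g) : Continuous (abelT964 g) := by
  rw [continuous_iff_continuousAt]
  intro r₀
  obtain ⟨M, hM0, hM⟩ := exists_bound_Ici964 hg h (r₀ - 1)
  unfold abelT964
  refine continuousAt_of_dominated (bound := bound964 M R r₀) ?_ ?_ (integrable_bound964 M R r₀) ?_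
  · exact Eventually.of_forall fun r => (continuous_integrand964 hg r).aestronglyMeasurable
  · filter_upwards [Metric.ball_mem_nhds r₀ one_pos] with r hr
    exact Eventually.of_forall fun u => norm_le_bound964 h hM0 hM hr u
  · exact Eventually.of_forall fun u => by fun_prop

/-- `(A g)' = A (g')`. -/
theorem hasDerivAt_abelT964 {R : ℝ} {g : ℝ → ℂ} (hg : ContDiff ℝ 1 g)
    (h : VanishesAbove964 R g) (r₀ : ℝ) :
    HasDerivAt (abelT964 g) (abelT964 (deriv g) r₀) r₀ := by
  have hg' : Continuous (deriv g) := hg.continuous_deriv le_rfl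
  obtain ⟨M, hM0, hM⟩ := exists_bound_Ici964 hg' h.deriv (r₀ - 1)
  have key := hasDerivAt_integral_of_dominated_loc_of_deriv_le (μ := volume)
    (F := fun r u => g (r + u ^ 2)) (F' := fun r u => deriv g (r + u ^ 2)) (x₀ := r₀)
    (bound := bound964 M R r₀) (s := Metric.ball r₀ 1) (Metric.ball_mem_nhds r₀ one_pos)
    (Eventually.of_forall fun r => (continuous_integrand964 hg.continuous r).aestronglyMeasurable)
    (integrable_integrand964 hg.continuous h r₀)
    (continuous_integrand964 hg' r₀).aestronglyMeasurable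
    (Eventually.of_forall fun u r hr => norm_le_bound964 h.deriv hM0 hM hr u)
    (integrable_bound964 M R r₀)
    (Eventually.of_forall fun u r _ => by
      have h1 : HasDerivAt g (deriv g (r + u ^ 2)) (r + u ^ 2) :=
        (hg.differentiable one_ne_zero (r + u ^ 2)).hasDerivAt
      have h2 : HasDerivAt (fun r : ℝ => r + u ^ 2) 1 r := (hasDerivAt_id r).add_const _
      have h3 := h1.scomp r h2
      rw [one_smul] at h3
      exact h3)
  exact key.2

theorem differentiable_abelT964 {R : ℝ} {g : ℝ → ℂ} (hg : ContDiff ℝ 1 g)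
    (h : VanishesAbove964 R g) : Differentiable ℝ (abelT964 g) :=
  fun r => (hasDerivAt_abelT964 hg h r).differentiableAt

theorem deriv_abelT964 {R : ℝ} {g : ℝ → ℂ} (hg : ContDiff ℝ 1 g)
    (h : VanishesAbove964 R g) : deriv (abelT964 g) = abelT964 (deriv g) :=
  funext fun r => (hasDerivAt_abelT964 hg h r).deriv

/-- `A` preserves `C^n`, `n` finite. -/
theorem contDiff_abelT_nat964 (n : ℕ) : ∀ {R : ℝ} {g : ℝ → ℂ}, ContDiff ℝ n g →
    VanishesAbove964 R g → ContDiff ℝ n (abelT964 g) := by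
  induction n with
  | zero =>
    intro R g hg h
    rw [Nat.cast_zero, contDiff_zero] at hg ⊢
    exact continuous_abelT964 hg h
  | succ n ih =>
    intro R g hg h
    have h1 : ContDiff ℝ 1 g := hg.of_le (by norm_cast; omega)
    rw [Nat.cast_succ] at hg ⊢
    rw [contDiff_succ_iff_deriv] at hg ⊢
    refine ⟨differentiable_abelT964 h1 h, fun hω => ?_, ?_⟩
    · exact absurd hω (by simp)
    · rw [deriv_abelT964 h1 h]
      exact ih hg.2.2 h.deriv

/-- `A` preserves smoothness. -/
theorem contDiff_abelT964 {R : ℝ} {g : ℝ → ℂ} (hg : ContDiff ℝ ∞ g)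
    (h : VanishesAbove964 R g) : ContDiff ℝ ∞ (abelT964 g) :=
  contDiff_infty.mpr fun n => contDiff_abelT_nat964 n (hg.of_le (by exact_mod_cast le_top)) h

end Fermat.Agent.LT.T6.H964
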