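import Fermat.Agent.LT.T6.H964.Abel

/-!
# Row LT, tower T6, leaf T6.24 (part 2): inversion of the Abel transform
(helper964, OFF-MAIN, Mathlib only)

* `abelT_abelT964`      : `A (A h) (ρ) = π ∫_{s > 0} h(ρ + s) ds` (polar coordinates);
* `abelT_abelT_deriv964`: `A (A g') = - π g`;
* `abel_inversion964`   : `g(ρ) = -(1/π) ∫ (A g)'(ρ + v²) dv`;
* `abelInv964 H = -(1/π) A (H')`, `abelT_abelInv964 : A (abelInv H) = H`,
  `abelInv_abelT964 : abelInv (A g) = g`, smoothness and support of `abelInv H`.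
-/

set_option autoImplicit false

open MeasureTheory Set Filter Topology Real
open scoped ContDiff

noncomputable section

namespace Fermat.Agent.LT.T6.H964

theorem integrable_prod_integrand964 {R : ℝ} {h : ℝ → ℂ} (hc : Continuous h)
    (hv : VanishesAbove964 R h) (ρ : ℝ) :
    Integrable (fun p : ℝ × ℝ => h (ρ + p.1 ^ 2 + p.2 ^ 2)) (volume.prod volume) := by
  have hcont : Continuous (fun p : ℝ × ℝ => h (ρ + p.1 ^ 2 + p.2 ^ 2)) := by fun_prop
  have hsupp : HasCompactSupport (fun p : ℝ × ℝ => h (ρ + p.1 ^ 2 + p.2 ^ 2)) := by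
    refine HasCompactSupport.intro
      ((isCompact_Icc (a := -rad964 R ρ) (b := rad964 R ρ)).prod
        (isCompact_Icc (a := -rad964 R ρ) (b := rad964 R ρ))) (fun p hp => ?_)
    rw [Set.mem_prod, not_and_or] at hp
    rcases hp with hp | hp
    · have h1 := integrand_eq_zero_of_rad964 (g := h) hv (a := ρ) (r := ρ + p.2 ^ 2)
        (by have := sq_nonneg p.2; linarith) hp
      rw [← h1]
      ring_nf
    · exact integrand_eq_zero_of_rad964 (g := h) hv (a := ρ) (r := ρ + p.1 ^ 2)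
        (by have := sq_nonneg p.1; linarith) hp
  have := hcont.integrable_of_hasCompactSupport (μ := (volume : Measure (ℝ × ℝ))) hsupp
  rwa [Measure.volume_eq_prod] at this

theorem abelT_abelT_eq_integral_prod964 {R : ℝ} {h : ℝ → ℂ} (hc : Continuous h)
    (hv : VanishesAbove964 R h) (ρ : ℝ) :
    abelT964 (abelT964 h) ρ = ∫ p : ℝ × ℝ, h (ρ + p.1 ^ 2 + p.2 ^ 2) := by
  rw [Measure.volume_eq_prod, integral_prod _ (integrable_prod_integrand964 hc hv ρ)]
  rfl

theorem integral_polar964 (h : ℝ → ℂ) (ρ : ℝ) :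
    ∫ p : ℝ × ℝ, h (ρ + p.1 ^ 2 + p.2 ^ 2) =
      (∫ r in Ioi (0 : ℝ), (r : ℂ) * h (ρ + r ^ 2)) * (2 * π : ℝ) := by
  calc ∫ p : ℝ × ℝ, h (ρ + p.1 ^ 2 + p.2 ^ 2)
      = ∫ p in polarCoord.target, p.1 • h (ρ + (p.1 * Real.cos p.2) ^ 2
          + (p.1 * Real.sin p.2) ^ 2) := by
        rw [← integral_comp_polarCoord_symm]
        simp only [polarCoord_symm_apply]
    _ = ∫ p in polarCoord.target, ((p.1 : ℂ) * h (ρ + p.1 ^ 2)) * (1 : ℂ) := by
        congr with p : 1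
        have e : ρ + (p.1 * Real.cos p.2) ^ 2 + (p.1 * Real.sin p.2) ^ 2 = ρ + p.1 ^ 2 := by
          have := Real.cos_sq_add_sin_sq p.2
          nlinarith [this]
        rw [e, mul_one, Complex.real_smul]
    _ = (∫ r in Ioi (0 : ℝ), (r : ℂ) * h (ρ + r ^ 2)) * ∫ _θ in Ioo (-π) π, (1 : ℂ) := by
        rw [polarCoord_target]
        exact setIntegral_prod_mul (fun r : ℝ => (r : ℂ) * h (ρ + r ^ 2)) (fun _ : ℝ => (1 : ℂ))
          (Ioi 0) (Ioo (-π) π)
    _ = (∫ r in Ioi (0 : ℝ), (r : ℂ) * h (ρ + r ^ 2)) * (2 * π : ℝ) := by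
        congr 1
        rw [setIntegral_const, measureReal_def, Real.volume_Ioo,
          ENNReal.toReal_ofReal (by linarith [Real.pi_pos])]
        simp
        ring

theorem integral_sq_subst964 (h : ℝ → ℂ) (ρ : ℝ) :
    ∫ r in Ioi (0 : ℝ), (r : ℂ) * h (ρ + r ^ 2) = (1 / 2 : ℂ) * ∫ s in Ioi (0 : ℝ), h (ρ + s) := by
  have key := integral_comp_rpow_Ioi (fun s : ℝ => h (ρ + s)) (p := 2) two_ne_zero
  rw [← key, ← integral_const_mul]
  refine setIntegral_congr_fun measurableSet_Ioi (fun r hr => ?_)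
  have hr0 : (0 : ℝ) < r := hr
  have e1 : r ^ ((2 : ℝ) - 1) = r := by
    norm_num
  have e2 : r ^ (2 : ℝ) = r ^ 2 := by
    rw [← Real.rpow_natCast]; norm_num
  simp only [e1, e2, abs_two, Complex.real_smul]
  push_cast
  ring

/-- **`A (A h) (ρ) = π ∫_{s > 0} h(ρ + s) ds`.** -/
theorem abelT_abelT964 {R : ℝ} {h : ℝ → ℂ} (hc : Continuous h)
    (hv : VanishesAbove964 R h) (ρ : ℝ) :
    abelT964 (abelT964 h) ρ = (π : ℂ) * ∫ s in Ioi (0 : ℝ), h (ρ + s) := by
  rw [abelT_abelT_eq_integral_prod964 hc hv, integral_polar964, integral_sq_subst964]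
  push_cast
  ring

theorem integrableOn_shift964 {R : ℝ} {f : ℝ → ℂ} (hc : Continuous f)
    (hv : VanishesAbove964 R f) (ρ : ℝ) : IntegrableOn (fun s : ℝ => f (ρ + s)) (Ioi 0) := by
  set c : ℝ := max (R - ρ) 0 with hc_def
  have h1 : IntegrableOn (fun s : ℝ => f (ρ + s)) (Icc 0 c) :=
    (by fun_prop : Continuous (fun s : ℝ => f (ρ + s))).integrableOn_Icc
  have h2 : Integrable ((Icc 0 c).indicator (fun s : ℝ => f (ρ + s))) :=
    (integrable_indicator_iff measurableSet_Icc).mpr h1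
  refine h2.integrableOn.congr_fun (fun s hs => ?_) measurableSet_Ioi
  have hs0 : (0 : ℝ) < s := hs
  by_cases hsc : s ≤ c
  · rw [indicator_of_mem (show s ∈ Icc 0 c from ⟨hs0.le, hsc⟩)]
  · rw [indicator_of_notMem (fun hmem => hsc hmem.2)]
    rw [not_le] at hsc
    symm
    apply hv
    have := le_max_left (R - ρ) 0
    linarith

/-- **`A (A g') = - π g`.** -/
theorem abelT_abelT_deriv964 {R : ℝ} {g : ℝ → ℂ} (hg : ContDiff ℝ 1 g)
    (hv : VanishesAbove964 R g) (ρ : ℝ) :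
    abelT964 (abelT964 (deriv g)) ρ = -(π : ℂ) * g ρ := by
  have hg' : Continuous (deriv g) := hg.continuous_deriv le_rfl
  rw [abelT_abelT964 hg' hv.deriv]
  have hderiv : ∀ s ∈ Ici (0 : ℝ), HasDerivAt (fun s : ℝ => g (ρ + s)) (deriv g (ρ + s)) s := by
    intro s _
    have h1 : HasDerivAt g (deriv g (ρ + s)) (ρ + s) :=
      (hg.differentiable one_ne_zero (ρ + s)).hasDerivAt
    have h2 : HasDerivAt (fun s : ℝ => ρ + s) 1 s := (hasDerivAt_id s).const_add _
    have h3 := h1.scomp s h2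
    rw [one_smul] at h3
    exact h3
  have htend : Tendsto (fun s : ℝ => g (ρ + s)) atTop (𝓝 0) := by
    apply tendsto_const_nhds.congr'
    filter_upwards [Ioi_mem_atTop (R - ρ)] with s hs
    symm
    apply hv
    have : R - ρ < s := hs
    linarith
  rw [integral_Ioi_of_hasDerivAt_of_tendsto' hderiv (integrableOn_shift964 hg' hv.deriv ρ) htend]
  simp

/-- **Abel inversion**: `g(ρ) = -(1/π) ∫ (A g)'(ρ + v²) dv`. -/
theorem abel_inversion964 {R : ℝ} {g : ℝ → ℂ} (hg : ContDiff ℝ 1 g)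
    (hv : VanishesAbove964 R g) (ρ : ℝ) :
    g ρ = -(1 / (π : ℂ)) * ∫ v : ℝ, deriv (abelT964 g) (ρ + v ^ 2) := by
  have h1 := abelT_abelT_deriv964 hg hv ρ
  rw [← deriv_abelT964 hg hv] at h1
  have hπ : (π : ℂ) ≠ 0 := by exact_mod_cast Real.pi_ne_zero
  change (∫ v : ℝ, deriv (abelT964 g) (ρ + v ^ 2)) = _ at h1
  rw [h1]
  field_simp

/-- The inverse Abel transform `H ↦ -(1/π) A (H')`. -/
def abelInv964 (H : ℝ → ℂ) (ρ : ℝ) : ℂ := -(1 / (π : ℂ)) * abelT964 (deriv H) ρ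

theorem abelInv_vanishesAbove964 {R : ℝ} {H : ℝ → ℂ} (hv : VanishesAbove964 R H) :
    VanishesAbove964 R (abelInv964 H) := by
  intro x hx
  unfold abelInv964
  rw [abelT_vanishesAbove964 hv.deriv x hx, mul_zero]

theorem contDiff_abelInv_nat964 (n : ℕ) {R : ℝ} {H : ℝ → ℂ} (hH : ContDiff ℝ (n + 1 : ℕ) H)
    (hv : VanishesAbove964 R H) : ContDiff ℝ n (abelInv964 H) := by
  have h1 : ContDiff ℝ n (deriv H) := by
    rw [Nat.cast_succ, contDiff_succ_iff_deriv] at hH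
    exact hH.2.2
  exact contDiff_const.mul (contDiff_abelT_nat964 n h1 hv.deriv)

theorem contDiff_abelInv964 {R : ℝ} {H : ℝ → ℂ} (hH : ContDiff ℝ ∞ H)
    (hv : VanishesAbove964 R H) : ContDiff ℝ ∞ (abelInv964 H) :=
  contDiff_infty.mpr fun n =>
    contDiff_abelInv_nat964 n (hH.of_le (by exact_mod_cast le_top)) hv

/-- `A (A⁻¹ H) = H` for `H` of class `C²` vanishing above `R`. -/
theorem abelT_abelInv964 {R : ℝ} {H : ℝ → ℂ} (hH : ContDiff ℝ 2 H)
    (hv : VanishesAbove964 R H) (r : ℝ) : abelT964 (abelInv964 H) r = H r := by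
  have h1 : ContDiff ℝ 1 H := hH.of_le (by norm_num)
  have e : abelInv964 H = fun x => -(1 / (π : ℂ)) * abelT964 (deriv H) x := rfl
  rw [e, abelT_smul964, abelT_abelT_deriv964 h1 hv]
  have hπ : (π : ℂ) ≠ 0 := by exact_mod_cast Real.pi_ne_zero
  field_simp

/-- `A⁻¹ (A g) = g` for `g` of class `C¹` vanishing above `R`. -/
theorem abelInv_abelT964 {R : ℝ} {g : ℝ → ℂ} (hg : ContDiff ℝ 1 g)
    (hv : VanishesAbove964 R g) (ρ : ℝ) : abelInv964 (abelT964 g) ρ = g ρ := by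
  unfold abelInv964
  rw [deriv_abelT964 hg hv, abelT_abelT_deriv964 hg hv]
  have hπ : (π : ℂ) ≠ 0 := by exact_mod_cast Real.pi_ne_zero
  field_simp

/-- **The Abel transform is a bijection of the smooth functions vanishing above `R`.** -/
theorem abel_bijection964 (R : ℝ) (H : ℝ → ℂ) (hH : ContDiff ℝ ∞ H)
    (hv : VanishesAbove964 R H) :
    ∃ g : ℝ → ℂ, ContDiff ℝ ∞ g ∧ VanishesAbove964 R g ∧ abelT964 g = H ∧
      ∀ g' : ℝ → ℂ, ContDiff ℝ 1 g' → (∃ R', VanishesAbove964 R' g') → abelT964 g' = H →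
        g' = g := by
  have h2 : ContDiff ℝ 2 H := by exact_mod_cast contDiff_infty.mp hH 2
  refine ⟨abelInv964 H, contDiff_abelInv964 hH hv, abelInv_vanishesAbove964 hv,
    funext fun r => abelT_abelInv964 h2 hv r, ?_⟩
  rintro g' hg' ⟨R', hv'⟩ rfl
  funext ρ
  exact (abelInv_abelT964 hg' hv' ρ).symm

end Fermat.Agent.LT.T6.H964
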