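import Mathlib

/-!
# Row LT, tower T6, leaf T6.24 (part 3): Hadamard's lemma and the even Taylor expansion
(helper964, OFF-MAIN, Mathlib only)

* `hadI964 j f t = ∫₀¹ τ^j f(τ t) dτ`; `hasDerivAt_hadI964` (`(hadI j f)' = hadI (j+1) f'`),
  `contDiff_hadI964`;
* `hadamard964` : `f t = f 0 + t * hadI 0 f' t`;
* `even_decomp964` : a smooth even `F` is `F 0 + t² c(t)` with `c` smooth and even;
* `even_taylor964` : for every `M`, `F t = p(t²) + t^(2M) G(t)` with `p`, `G` smooth.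
-/

set_option autoImplicit false

open MeasureTheory Set Filter Topology
open scoped ContDiff

noncomputable section

namespace Fermat.Agent.LT.T6.H964

/-- `hadI964 j f t = ∫₀¹ τ^j f(τ t) dτ`. -/
def hadI964 (j : ℕ) (f : ℝ → ℂ) (t : ℝ) : ℂ := ∫ τ in (0 : ℝ)..1, (τ : ℂ) ^ j * f (τ * t)

theorem continuous_hadI964 (j : ℕ) {f : ℝ → ℂ} (hf : Continuous f) :
    Continuous (hadI964 j f) := by
  have h := intervalIntegral.continuous_parametric_intervalIntegral_of_continuous'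
    (μ := volume) (f := fun (t : ℝ) (τ : ℝ) => (τ : ℂ) ^ j * f (τ * t))
    (by unfold Function.uncurry; fun_prop) 0 1
  exact h

theorem exists_bound_Icc964 {f : ℝ → ℂ} (hf : Continuous f) (c : ℝ) :
    ∃ C : ℝ, ∀ x, |x| ≤ c → ‖f x‖ ≤ C := by
  obtain ⟨C, hC⟩ := (isCompact_Icc (a := -c) (b := c)).exists_bound_of_continuousOn
    hf.continuousOn
  exact ⟨C, fun x hx => hC x (abs_le.mp hx)⟩

/-- `(hadI j f)' = hadI (j+1) f'`. -/
theorem hasDerivAt_hadI964 (j : ℕ) {f : ℝ → ℂ} (hf : ContDiff ℝ 1 f) (t₀ : ℝ) :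
    HasDerivAt (hadI964 j f) (hadI964 (j + 1) (deriv f) t₀) t₀ := by
  have hf' : Continuous (deriv f) := hf.continuous_deriv le_rfl
  have hfc : Continuous f := hf.continuous
  obtain ⟨C, hC⟩ := exists_bound_Icc964 hf' (|t₀| + 1)
  have key := intervalIntegral.hasDerivAt_integral_of_dominated_loc_of_deriv_le (μ := volume)
    (a := (0 : ℝ)) (b := 1)
    (F := fun (t : ℝ) (τ : ℝ) => (τ : ℂ) ^ j * f (τ * t))
    (F' := fun (t : ℝ) (τ : ℝ) => (τ : ℂ) ^ (j + 1) * deriv f (τ * t)) (x₀ := t₀)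
    (bound := fun _ => C) (s := Metric.ball t₀ 1) (Metric.ball_mem_nhds t₀ one_pos)
    (Eventually.of_forall fun t =>
      (by fun_prop : Continuous fun τ : ℝ => (τ : ℂ) ^ j * f (τ * t)).aestronglyMeasurable)
    ((by fun_prop : Continuous fun τ : ℝ => (τ : ℂ) ^ j * f (τ * t₀)).intervalIntegrable 0 1)
    ((by fun_prop : Continuous fun τ : ℝ =>
      (τ : ℂ) ^ (j + 1) * deriv f (τ * t₀)).aestronglyMeasurable)
    (Eventually.of_forall fun τ hτ t ht => by
      rw [uIoc_of_le zero_le_one] at hτ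
      have hτ0 : 0 ≤ τ := hτ.1.le
      have hτ1 : τ ≤ 1 := hτ.2
      have ht' : |t| ≤ |t₀| + 1 := by
        rw [Metric.mem_ball, Real.dist_eq] at ht
        have := abs_sub_abs_le_abs_sub t t₀
        linarith
      have h1 : |τ * t| ≤ |t₀| + 1 := by
        rw [abs_mul, abs_of_nonneg hτ0]
        calc τ * |t| ≤ 1 * |t| := mul_le_mul_of_nonneg_right hτ1 (abs_nonneg t)
          _ = |t| := one_mul _
          _ ≤ |t₀| + 1 := ht'
      have h2 : ‖(τ : ℂ) ^ (j + 1)‖ ≤ 1 := by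
        rw [norm_pow, Complex.norm_real, Real.norm_eq_abs, abs_of_nonneg hτ0]
        exact pow_le_one₀ hτ0 hτ1
      calc ‖(τ : ℂ) ^ (j + 1) * deriv f (τ * t)‖
          = ‖(τ : ℂ) ^ (j + 1)‖ * ‖deriv f (τ * t)‖ := norm_mul _ _
        _ ≤ 1 * C := mul_le_mul h2 (hC _ h1) (norm_nonneg _) zero_le_one
        _ = C := one_mul _)
    intervalIntegrable_const
    (Eventually.of_forall fun τ _ t _ => by
      have h1 : HasDerivAt f (deriv f (τ * t)) (τ * t) :=
        (hf.differentiable one_ne_zero (τ * t)).hasDerivAt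
      have h2 : HasDerivAt (fun t : ℝ => τ * t) τ t := by
        simpa using (hasDerivAt_id t).const_mul τ
      have h3 := h1.scomp t h2
      have h4 : HasDerivAt (fun t : ℝ => (τ : ℂ) ^ j * f (τ * t))
          ((τ : ℂ) ^ j * (τ • deriv f (τ * t))) t := h3.const_mul ((τ : ℂ) ^ j)
      refine h4.congr_deriv ?_
      rw [Complex.real_smul, pow_succ]
      ring)
  exact key.2

theorem differentiable_hadI964 (j : ℕ) {f : ℝ → ℂ} (hf : ContDiff ℝ 1 f) :
    Differentiable ℝ (hadI964 j f) :=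
  fun t => (hasDerivAt_hadI964 j hf t).differentiableAt

theorem deriv_hadI964 (j : ℕ) {f : ℝ → ℂ} (hf : ContDiff ℝ 1 f) :
    deriv (hadI964 j f) = hadI964 (j + 1) (deriv f) :=
  funext fun t => (hasDerivAt_hadI964 j hf t).deriv

theorem contDiff_hadI_nat964 (n : ℕ) : ∀ (j : ℕ) {f : ℝ → ℂ}, ContDiff ℝ n f →
    ContDiff ℝ n (hadI964 j f) := by
  induction n with
  | zero =>
    intro j f hf
    rw [Nat.cast_zero, contDiff_zero] at hf ⊢
    exact continuous_hadI964 j hf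
  | succ n ih =>
    intro j f hf
    have h1 : ContDiff ℝ 1 f := hf.of_le (by norm_cast; omega)
    rw [Nat.cast_succ] at hf ⊢
    rw [contDiff_succ_iff_deriv] at hf ⊢
    refine ⟨differentiable_hadI964 j h1, fun hω => ?_, ?_⟩
    · exact absurd hω (by simp)
    · rw [deriv_hadI964 j h1]
      exact ih (j + 1) hf.2.2

theorem contDiff_hadI964 (j : ℕ) {f : ℝ → ℂ} (hf : ContDiff ℝ ∞ f) :
    ContDiff ℝ ∞ (hadI964 j f) :=
  contDiff_infty.mpr fun n => contDiff_hadI_nat964 n j (hf.of_le (by exact_mod_cast le_top))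

/-- **Hadamard's lemma**: `f t = f 0 + t * ∫₀¹ f'(τ t) dτ`. -/
theorem hadamard964 {f : ℝ → ℂ} (hf : ContDiff ℝ 1 f) (t : ℝ) :
    f t = f 0 + (t : ℂ) * hadI964 0 (deriv f) t := by
  have hf' : Continuous (deriv f) := hf.continuous_deriv le_rfl
  have hderiv : ∀ τ ∈ uIcc (0 : ℝ) 1,
      HasDerivAt (fun τ : ℝ => f (τ * t)) ((t : ℂ) * deriv f (τ * t)) τ := by
    intro τ _
    have h1 : HasDerivAt f (deriv f (τ * t)) (τ * t) :=
      (hf.differentiable one_ne_zero (τ * t)).hasDerivAt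
    have h2 : HasDerivAt (fun τ : ℝ => τ * t) t τ := by
      simpa using (hasDerivAt_id τ).mul_const t
    have h3 := h1.scomp τ h2
    rwa [Complex.real_smul] at h3
  have hint : IntervalIntegrable (fun τ : ℝ => (t : ℂ) * deriv f (τ * t)) volume 0 1 :=
    (by fun_prop : Continuous fun τ : ℝ => (t : ℂ) * deriv f (τ * t)).intervalIntegrable 0 1
  have key := intervalIntegral.integral_eq_sub_of_hasDerivAt hderiv hint
  rw [intervalIntegral.integral_const_mul] at key
  unfold hadI964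
  simp only [pow_zero, one_mul]
  rw [key]
  simp

/-! ## Parity -/

/-- `F` is even. -/
def IsEven964 (F : ℝ → ℂ) : Prop := ∀ t, F (-t) = F t

/-- `F` is odd. -/
def IsOdd964 (F : ℝ → ℂ) : Prop := ∀ t, F (-t) = -F t

theorem isOdd_deriv964 {F : ℝ → ℂ} (h : IsEven964 F) : IsOdd964 (deriv F) := by
  intro t
  have e : (fun x : ℝ => F (-x)) = F := funext h
  have h1 := deriv_comp_neg F (-t)
  rw [e, neg_neg] at h1
  rw [h1]

theorem isEven_deriv964 {F : ℝ → ℂ} (h : IsOdd964 F) : IsEven964 (deriv F) := by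
  intro t
  have e : (fun x : ℝ => F (-x)) = fun x => -F x := funext h
  have h1 := deriv_comp_neg F t
  rw [e] at h1
  have h2 : deriv (fun x => -F x) t = -deriv F t := by
    simp
  rw [h2] at h1
  exact neg_injective h1.symm

theorem IsOdd964.zero {F : ℝ → ℂ} (h : IsOdd964 F) : F 0 = 0 := by
  have := h 0
  rw [neg_zero] at this
  have h2 : (2 : ℂ) * F 0 = 0 := by linear_combination this
  simpa using h2

theorem isEven_hadI964 {F : ℝ → ℂ} (h : IsEven964 F) (j : ℕ) : IsEven964 (hadI964 j F) := by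
  intro t
  unfold hadI964
  congr 1
  funext τ
  rw [mul_neg, h]

theorem isOdd_hadI964 {F : ℝ → ℂ} (h : IsOdd964 F) (j : ℕ) : IsOdd964 (hadI964 j F) := by
  intro t
  unfold hadI964
  rw [← intervalIntegral.integral_neg]
  congr 1
  funext τ
  rw [mul_neg, h]
  ring

theorem contDiff_deriv_infty964 {F : ℝ → ℂ} (hF : ContDiff ℝ ∞ F) : ContDiff ℝ ∞ (deriv F) :=
  (contDiff_infty_iff_deriv.mp hF).2

/-- A smooth even function is `F 0 + t² c(t)` with `c` smooth and even. -/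
theorem even_decomp964 {F : ℝ → ℂ} (hF : ContDiff ℝ ∞ F) (he : IsEven964 F) :
    ∃ c : ℝ → ℂ, ContDiff ℝ ∞ c ∧ IsEven964 c ∧ ∀ t : ℝ, F t = F 0 + (t : ℂ) ^ 2 * c t := by
  have hF1 : ContDiff ℝ 1 F := hF.of_le (by exact_mod_cast le_top)
  have hF' : ContDiff ℝ ∞ (deriv F) := contDiff_deriv_infty964 hF
  set b : ℝ → ℂ := hadI964 0 (deriv F) with hb
  have hbs : ContDiff ℝ ∞ b := contDiff_hadI964 0 hF'
  have hbo : IsOdd964 b := isOdd_hadI964 (isOdd_deriv964 he) 0
  have hb1 : ContDiff ℝ 1 b := hbs.of_le (by exact_mod_cast le_top)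
  have hb' : ContDiff ℝ ∞ (deriv b) := contDiff_deriv_infty964 hbs
  refine ⟨hadI964 0 (deriv b), contDiff_hadI964 0 hb', isEven_hadI964 (isEven_deriv964 hbo) 0,
    fun t => ?_⟩
  have h1 := hadamard964 hF1 t
  have h2 := hadamard964 hb1 t
  rw [hbo.zero, zero_add] at h2
  rw [h1, ← hb, h2]
  ring

/-- **Even Taylor expansion**: for every `M`, a smooth even `F` is `p(t²) + t^(2M) G(t)` with
`p` and `G` smooth. -/
theorem even_taylor964 (M : ℕ) : ∀ {F : ℝ → ℂ}, ContDiff ℝ ∞ F → IsEven964 F →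
    ∃ p G : ℝ → ℂ, ContDiff ℝ ∞ p ∧ ContDiff ℝ ∞ G ∧ IsEven964 G ∧
      ∀ t : ℝ, F t = p (t ^ 2) + (t : ℂ) ^ (2 * M) * G t := by
  induction M with
  | zero =>
    intro F hF he
    exact ⟨fun _ => 0, F, contDiff_const, hF, he, fun t => by simp⟩
  | succ M ih =>
    intro F hF he
    obtain ⟨p, G, hp, hG, hGe, hFG⟩ := ih hF he
    obtain ⟨c, hc, hce, hGc⟩ := even_decomp964 hG hGe
    refine ⟨fun s => p s + G 0 * (s : ℂ) ^ M, c, ?_, hc, hce, fun t => ?_⟩
    · refine hp.add (contDiff_const.mul ?_)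
      exact (Complex.ofRealCLM.contDiff.pow M)
    · rw [hFG t, hGc t]
      push_cast
      ring
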