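import Fermat.Agent.LT.T6.H964.Hadamard

/-!
# Row LT, tower T6, leaf T6.24 (part 4): Whitney's theorem on even functions (finite order form)
(helper964, OFF-MAIN, Mathlib only)

* `whit964 M G s = s^M G(√|s|)` is of class `C^M` for smooth `G` (`contDiff_whit964`);
* `whitney_even964` : a smooth even `F` is, for every `N`, of the form `F t = k(t²)` with
  `k` of class `C^N` on `ℝ`;
* `whitney_cosh964` : a smooth even `F` is, for every `N`, of the form `F t = h(cosh t)` with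
  `h` of class `C^N` on `ℝ`; `h = F ∘ arcosh` on `[1, ∞)` and `h` vanishes above `cosh T` if
  `F` vanishes for `|t| > T`.

Reference: H. Whitney, *Differentiable even functions*, Duke Math. J. 10 (1943).
-/

set_option autoImplicit false

open MeasureTheory Set Filter Topology
open scoped ContDiff

noncomputable section

namespace Fermat.Agent.LT.T6.H964

/-- `whit964 M G s = s^M · G(√|s|)`. -/
def whit964 (M : ℕ) (G : ℝ → ℂ) (s : ℝ) : ℂ := (s : ℂ) ^ M * G (Real.sqrt |s|)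

/-- `whitD964 M G = (M+1) G + (1/2) t G'`: the derivative of `whit964 (M+1) G` is
`whit964 M (whitD964 M G)`. -/
def whitD964 (M : ℕ) (G : ℝ → ℂ) (t : ℝ) : ℂ :=
  ((M : ℂ) + 1) * G t + (1 / 2 : ℂ) * (t : ℂ) * deriv G t

theorem continuous_whit964 (M : ℕ) {G : ℝ → ℂ} (hG : Continuous G) :
    Continuous (whit964 M G) := by
  unfold whit964
  fun_prop

theorem contDiff_whitD964 (M : ℕ) {G : ℝ → ℂ} (hG : ContDiff ℝ ∞ G) :
    ContDiff ℝ ∞ (whitD964 M G) := by
  unfold whitD964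
  have h1 : ContDiff ℝ ∞ (deriv G) := contDiff_deriv_infty964 hG
  have h2 : ContDiff ℝ ∞ (fun t : ℝ => (t : ℂ)) := Complex.ofRealCLM.contDiff
  exact (contDiff_const.mul hG).add ((contDiff_const.mul h2).mul h1)

theorem hasDerivAt_sqrt_abs964 {s : ℝ} (hs : s ≠ 0) :
    ∃ d : ℝ, HasDerivAt (fun s : ℝ => Real.sqrt |s|) d s ∧ s * d = Real.sqrt |s| / 2 := by
  have habs : |s| ≠ 0 := abs_ne_zero.mpr hs
  have hsq : Real.sqrt |s| ≠ 0 := by
    rw [Real.sqrt_ne_zero (abs_nonneg s)]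
    exact habs
  have hmul : Real.sqrt |s| * Real.sqrt |s| = |s| := Real.mul_self_sqrt (abs_nonneg s)
  rcases hs.lt_or_gt with h | h
  · refine ⟨1 / (2 * Real.sqrt |s|) * (-1),
      (Real.hasDerivAt_sqrt habs).comp s (hasDerivAt_abs_neg h), ?_⟩
    have e : s = -|s| := by rw [abs_of_neg h]; ring
    field_simp
    nlinarith [hmul, e]
  · refine ⟨1 / (2 * Real.sqrt |s|) * 1,
      (Real.hasDerivAt_sqrt habs).comp s (hasDerivAt_abs_pos h), ?_⟩
    have e : s = |s| := by rw [abs_of_pos h]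
    field_simp
    nlinarith [hmul, e]

theorem hasDerivAt_whit_of_ne964 (M : ℕ) {G : ℝ → ℂ} (hG : ContDiff ℝ 1 G) {s : ℝ}
    (hs : s ≠ 0) : HasDerivAt (whit964 (M + 1) G) (whit964 M (whitD964 M G) s) s := by
  obtain ⟨d, hd, hsd⟩ := hasDerivAt_sqrt_abs964 hs
  have h1 : HasDerivAt G (deriv G (Real.sqrt |s|)) (Real.sqrt |s|) :=
    (hG.differentiable one_ne_zero _).hasDerivAt
  have h2 : HasDerivAt (fun s : ℝ => G (Real.sqrt |s|)) (d • deriv G (Real.sqrt |s|)) s :=
    h1.scomp s hd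
  have h3 : HasDerivAt (fun s : ℝ => (s : ℂ) ^ (M + 1)) (((M + 1 : ℕ) : ℂ) * (s : ℂ) ^ M) s := by
    simpa using (hasDerivAt_pow (M + 1) (s : ℂ)).comp_ofReal
  have h4 : HasDerivAt (whit964 (M + 1) G)
      (((M + 1 : ℕ) : ℂ) * (s : ℂ) ^ M * G (Real.sqrt |s|) +
        (s : ℂ) ^ (M + 1) * (d • deriv G (Real.sqrt |s|))) s := h3.mul h2
  refine h4.congr_deriv ?_
  unfold whit964 whitD964
  have e : ((s * d : ℝ) : ℂ) = ((Real.sqrt |s| / 2 : ℝ) : ℂ) := by rw [hsd]
  rw [Complex.real_smul, pow_succ]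
  push_cast at e ⊢
  linear_combination ((s : ℂ) ^ M * deriv G (Real.sqrt |s|)) * e

theorem hasDerivAt_mul_self964 {ψ : ℝ → ℂ} (hψ : ContinuousAt ψ 0) :
    HasDerivAt (fun s : ℝ => (s : ℂ) * ψ s) (ψ 0) 0 := by
  rw [hasDerivAt_iff_tendsto_slope_zero]
  have h1 : Tendsto ψ (𝓝[≠] 0) (𝓝 (ψ 0)) := hψ.tendsto.mono_left nhdsWithin_le_nhds
  refine h1.congr' ?_
  filter_upwards [self_mem_nhdsWithin] with t ht
  have ht0 : (t : ℂ) ≠ 0 := by
    have : t ≠ 0 := ht
    exact_mod_cast this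
  simp only [zero_add, Complex.ofReal_zero, zero_mul, sub_zero, Complex.real_smul,
    Complex.ofReal_inv]
  field_simp

theorem whit_whitD_zero964 (M : ℕ) (G : ℝ → ℂ) :
    whit964 M (whitD964 M G) 0 = whit964 M G 0 := by
  unfold whit964 whitD964
  cases M with
  | zero => simp
  | succ M => simp

theorem hasDerivAt_whit_zero964 (M : ℕ) {G : ℝ → ℂ} (hG : Continuous G) :
    HasDerivAt (whit964 (M + 1) G) (whit964 M (whitD964 M G) 0) 0 := by
  rw [whit_whitD_zero964]
  have h := hasDerivAt_mul_self964 (ψ := whit964 M G) (continuous_whit964 M hG).continuousAt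
  have e : whit964 (M + 1) G = fun s : ℝ => (s : ℂ) * whit964 M G s := by
    funext s
    unfold whit964
    rw [pow_succ]
    ring
  rw [e]
  exact h

theorem hasDerivAt_whit964 (M : ℕ) {G : ℝ → ℂ} (hG : ContDiff ℝ 1 G) (s : ℝ) :
    HasDerivAt (whit964 (M + 1) G) (whit964 M (whitD964 M G) s) s := by
  by_cases hs : s = 0
  · subst hs
    exact hasDerivAt_whit_zero964 M hG.continuous
  · exact hasDerivAt_whit_of_ne964 M hG hs

theorem deriv_whit964 (M : ℕ) {G : ℝ → ℂ} (hG : ContDiff ℝ 1 G) :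
    deriv (whit964 (M + 1) G) = whit964 M (whitD964 M G) :=
  funext fun s => (hasDerivAt_whit964 M hG s).deriv

/-- `s ↦ s^M G(√|s|)` is of class `C^M` for smooth `G`. -/
theorem contDiff_whit964 (M : ℕ) : ∀ {G : ℝ → ℂ}, ContDiff ℝ ∞ G →
    ContDiff ℝ M (whit964 M G) := by
  induction M with
  | zero =>
    intro G hG
    rw [Nat.cast_zero, contDiff_zero]
    exact continuous_whit964 0 hG.continuous
  | succ M ih =>
    intro G hG
    have h1 : ContDiff ℝ 1 G := hG.of_le (by exact_mod_cast le_top)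
    rw [Nat.cast_succ, contDiff_succ_iff_deriv]
    refine ⟨fun s => (hasDerivAt_whit964 M h1 s).differentiableAt, fun hω => ?_, ?_⟩
    · exact absurd hω (by simp)
    · rw [deriv_whit964 M h1]
      exact ih (contDiff_whitD964 M hG)

/-- **Whitney's theorem on even functions, finite order form**: a smooth even function is, for
every `N`, of the form `t ↦ k(t²)` with `k` of class `C^N`. -/
theorem whitney_even964 {F : ℝ → ℂ} (hF : ContDiff ℝ ∞ F) (he : IsEven964 F) (N : ℕ) :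
    ∃ k : ℝ → ℂ, ContDiff ℝ N k ∧ ∀ t : ℝ, F t = k (t ^ 2) := by
  obtain ⟨p, G, hp, hG, hGe, hFG⟩ := even_taylor964 N hF he
  refine ⟨fun s => p s + whit964 N G s, ?_, fun t => ?_⟩
  · exact (hp.of_le (by exact_mod_cast le_top)).add (contDiff_whit964 N hG)
  · rw [hFG t]
    have h1 : |t ^ 2| = t ^ 2 := abs_of_nonneg (sq_nonneg t)
    have h2 : G (Real.sqrt |t ^ 2|) = G t := by
      rw [h1, Real.sqrt_sq_eq_abs]
      rcases abs_choice t with h | h
      · rw [h]
      · rw [h, hGe]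
    change p (t ^ 2) + (t : ℂ) ^ (2 * N) * G t
      = p (t ^ 2) + ((t ^ 2 : ℝ) : ℂ) ^ N * G (Real.sqrt |t ^ 2|)
    rw [h2]
    push_cast
    ring

theorem cosh_eq_one_add964 (t : ℝ) : Real.cosh t = 1 + (2 * Real.sinh (t / 2)) ^ 2 / 2 := by
  have h1 := Real.cosh_two_mul (t / 2)
  have h2 := Real.cosh_sq (t / 2)
  have e : 2 * (t / 2) = t := by ring
  rw [e] at h1
  rw [h1, h2]
  ring

/-- **Whitney's theorem, `cosh` form**: a smooth even function is, for every `N`, of the form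
`t ↦ h(cosh t)` with `h` of class `C^N` on `ℝ`. -/
theorem whitney_cosh964 {F : ℝ → ℂ} (hF : ContDiff ℝ ∞ F) (he : IsEven964 F) (N : ℕ) :
    ∃ h : ℝ → ℂ, ContDiff ℝ N h ∧ ∀ t : ℝ, F t = h (Real.cosh t) := by
  have hsm : ContDiff ℝ ∞ (fun w : ℝ => F (2 * Real.arsinh (w / 2))) := by
    have h1 : ContDiff ℝ ∞ (fun w : ℝ => 2 * Real.arsinh (w / 2)) :=
      contDiff_const.mul (Real.contDiff_arsinh.comp (contDiff_id.div_const 2))
    exact hF.comp h1
  have hev : IsEven964 (fun w : ℝ => F (2 * Real.arsinh (w / 2))) := by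
    intro w
    have e : 2 * Real.arsinh (-w / 2) = -(2 * Real.arsinh (w / 2)) := by
      rw [neg_div, Real.arsinh_neg]
      ring
    change F (2 * Real.arsinh (-w / 2)) = F (2 * Real.arsinh (w / 2))
    rw [e, he]
  obtain ⟨k, hk, hFk⟩ := whitney_even964 hsm hev N
  refine ⟨fun r => k (2 * (r - 1)), ?_, fun t => ?_⟩
  · exact hk.comp (contDiff_const.mul (contDiff_id.sub contDiff_const))
  · have h1 := hFk (2 * Real.sinh (t / 2))
    have e1 : 2 * Real.arsinh (2 * Real.sinh (t / 2) / 2) = t := by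
      have : 2 * Real.sinh (t / 2) / 2 = Real.sinh (t / 2) := by ring
      rw [this, Real.arsinh_sinh]
      ring
    have e2 : (2 * Real.sinh (t / 2)) ^ 2 = 2 * (Real.cosh t - 1) := by
      rw [cosh_eq_one_add964 t]
      ring
    simp only [e1, e2] at h1
    exact h1

/-- The function of `r = cosh t` is `F ∘ arcosh` on `[1, ∞)`. -/
theorem eq_comp_arcosh964 {F h : ℝ → ℂ} (hFh : ∀ t : ℝ, F t = h (Real.cosh t)) {r : ℝ}
    (hr : 1 ≤ r) : h r = F (Real.arcosh r) := by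
  rw [hFh, Real.cosh_arcosh hr]

/-- Two functions of `cosh t` representing the same `F` agree on `[1, ∞)`. -/
theorem eq_on_Ici_of_cosh964 {F h h' : ℝ → ℂ} (hFh : ∀ t : ℝ, F t = h (Real.cosh t))
    (hFh' : ∀ t : ℝ, F t = h' (Real.cosh t)) (r : ℝ) (hr : 1 ≤ r) : h r = h' r := by
  rw [eq_comp_arcosh964 hFh hr, eq_comp_arcosh964 hFh' hr]

/-- Support: if `F t = 0` for `|t| > T` then `h` vanishes above `cosh T`. -/
theorem eq_zero_of_cosh_lt964 {F h : ℝ → ℂ} (hFh : ∀ t : ℝ, F t = h (Real.cosh t)) {T : ℝ}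
    (hT : ∀ t : ℝ, T < |t| → F t = 0) {r : ℝ} (hr : Real.cosh T < r) : h r = 0 := by
  have hr1 : 1 ≤ r := le_trans (Real.one_le_cosh T) hr.le
  rw [eq_comp_arcosh964 hFh hr1]
  apply hT
  have h1 : Real.cosh T < Real.cosh (Real.arcosh r) := by rwa [Real.cosh_arcosh hr1]
  rw [Real.cosh_lt_cosh] at h1
  exact lt_of_le_of_lt (le_abs_self T) h1

end Fermat.Agent.LT.T6.H964
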