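import Fermat.Agent.LT.T6.H964.AbelInv
import Fermat.Agent.LT.T6.H964.Whitney

/-!
# Row LT, tower T6, leaf T6.24 (part 5): functions smooth on `[a, ∞)`, the Abel transform on them,
and the EXISTENCE theorems of weights `0` and `1`
(helper964, OFF-MAIN, Mathlib only)

`SmoothOnIci964 a H` : for every `N`, `H` agrees on `[a, ∞)` with a function of class `C^N` on
`ℝ` (Whitney smoothness on the closed half line; this is what composition needs:
`SmoothOnIci964.comp` — `H ∘ ψ` is `C^∞` for every smooth `ψ : E → ℝ` with values `≥ a`,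
e.g. `ψ = rhoR (g * h t)`, `a = 1`).

Main results (memo `coord/LT-T6-interface.md` v4, "Why (2)"):

* `abel_exists964` (weight 0): a smooth even `F` vanishing for `|t| > T` is
  `F t = (A g)(cosh t)` with `g` smooth on `[1, ∞)` vanishing above `cosh T`;
* `abel_unique964`, `abel_unique_Ici964` : `g` is unique on `[1, ∞)`;
* `abel_forward964` : conversely `t ↦ (A g)(cosh t)` is smooth, even, vanishes if `cosh t > R`;
* `abel_exists_wt1_964` (weight 1, `G₁`), `abel_exists_wt1'_964` (weight 1, `g₁ = √(ρ+1) G₁`):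
  `F t = 2 cosh(t/2) (A G₁)(cosh t)`.
-/

set_option autoImplicit false

open MeasureTheory Set Filter Topology
open scoped ContDiff

noncomputable section

namespace Fermat.Agent.LT.T6.H964

/-- `H` is smooth on `[a, ∞)` in Whitney's sense: for every `N` it agrees on `[a, ∞)` with a
function of class `C^N` on `ℝ`. -/
def SmoothOnIci964 (a : ℝ) (H : ℝ → ℂ) : Prop :=
  ∀ N : ℕ, ∃ h : ℝ → ℂ, ContDiff ℝ N h ∧ ∀ r, a ≤ r → h r = H r

theorem smoothOnIci_of_contDiff964 (a : ℝ) {H : ℝ → ℂ} (hH : ContDiff ℝ ∞ H) :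
    SmoothOnIci964 a H :=
  fun _ => ⟨H, hH.of_le (by exact_mod_cast le_top), fun _ _ => rfl⟩

theorem SmoothOnIci964.congr {a : ℝ} {H H' : ℝ → ℂ} (hH : SmoothOnIci964 a H)
    (heq : ∀ r, a ≤ r → H' r = H r) : SmoothOnIci964 a H' := by
  intro N
  obtain ⟨h, hh, he⟩ := hH N
  exact ⟨h, hh, fun r hr => (he r hr).trans (heq r hr).symm⟩

theorem SmoothOnIci964.mono {a b : ℝ} {H : ℝ → ℂ} (hH : SmoothOnIci964 a H) (hab : a ≤ b) :
    SmoothOnIci964 b H := by
  intro N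
  obtain ⟨h, hh, he⟩ := hH N
  exact ⟨h, hh, fun r hr => he r (le_trans hab hr)⟩

/-- **Composition**: `H ∘ ψ` is smooth for every smooth `ψ` with values in `[a, ∞)`. -/
theorem SmoothOnIci964.comp {E : Type*} [NormedAddCommGroup E] [NormedSpace ℝ E] {a : ℝ}
    {H : ℝ → ℂ} (hH : SmoothOnIci964 a H) {ψ : E → ℝ} (hψ : ContDiff ℝ ∞ ψ)
    (ha : ∀ x, a ≤ ψ x) : ContDiff ℝ ∞ (fun x => H (ψ x)) := by
  rw [contDiff_infty]
  intro N
  obtain ⟨h, hh, heq⟩ := hH N
  have e : (fun x => H (ψ x)) = fun x => h (ψ x) := funext fun x => (heq _ (ha x)).symm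
  rw [e]
  exact hh.comp (hψ.of_le (by exact_mod_cast le_top))

theorem SmoothOnIci964.continuousOn {a : ℝ} {H : ℝ → ℂ} (hH : SmoothOnIci964 a H) :
    ContinuousOn H (Ici a) := by
  obtain ⟨h, hh, heq⟩ := hH 0
  exact hh.continuous.continuousOn.congr (fun r hr => (heq r hr).symm)

theorem SmoothOnIci964.add {a : ℝ} {H K : ℝ → ℂ} (hH : SmoothOnIci964 a H)
    (hK : SmoothOnIci964 a K) : SmoothOnIci964 a (fun r => H r + K r) := by
  intro N
  obtain ⟨h, hh, he⟩ := hH N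
  obtain ⟨k, hk, hke⟩ := hK N
  exact ⟨fun r => h r + k r, hh.add hk, fun r hr => by simp only [he r hr, hke r hr]⟩

theorem SmoothOnIci964.mul {a : ℝ} {H K : ℝ → ℂ} (hH : SmoothOnIci964 a H)
    (hK : SmoothOnIci964 a K) : SmoothOnIci964 a (fun r => H r * K r) := by
  intro N
  obtain ⟨h, hh, he⟩ := hH N
  obtain ⟨k, hk, hke⟩ := hK N
  exact ⟨fun r => h r * k r, hh.mul hk, fun r hr => by simp only [he r hr, hke r hr]⟩

theorem SmoothOnIci964.const_mul {a : ℝ} {H : ℝ → ℂ} (hH : SmoothOnIci964 a H) (c : ℂ) :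
    SmoothOnIci964 a (fun r => c * H r) :=
  (smoothOnIci_of_contDiff964 a (contDiff_const (c := c))).mul hH

/-- An extension of a function vanishing above `R` vanishes above `max R a`. -/
theorem vanishesAbove_ext964 {a R : ℝ} {g h : ℝ → ℂ} (hv : VanishesAbove964 R g)
    (heq : ∀ r, a ≤ r → h r = g r) : VanishesAbove964 (max R a) h := by
  intro x hx
  rw [heq x (le_trans (le_max_right R a) hx.le)]
  exact hv x (lt_of_le_of_lt (le_max_left R a) hx)

/-- The Abel transform preserves smoothness on `[a, ∞)`. -/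
theorem SmoothOnIci964.abelT {a R : ℝ} {g : ℝ → ℂ} (hg : SmoothOnIci964 a g)
    (hv : VanishesAbove964 R g) : SmoothOnIci964 a (abelT964 g) := by
  intro N
  obtain ⟨h, hh, heq⟩ := hg N
  exact ⟨abelT964 h, contDiff_abelT_nat964 N hh (vanishesAbove_ext964 hv heq),
    fun r hr => abelT_congr_Ici964 heq r hr⟩

/-- The derivatives of two differentiable functions which agree on `[a, ∞)` agree on `[a, ∞)`. -/
theorem deriv_eq_of_eqOn_Ici964 {h h' : ℝ → ℂ} {a x : ℝ} (hh : DifferentiableAt ℝ h x)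
    (hh' : DifferentiableAt ℝ h' x) (heq : ∀ r, a ≤ r → h r = h' r) (hx : a ≤ x) :
    deriv h x = deriv h' x := by
  have hu : UniqueDiffWithinAt ℝ (Ici a) x := uniqueDiffOn_Ici a x hx
  rw [← hh.derivWithin hu, ← hh'.derivWithin hu]
  exact derivWithin_congr (fun r hr => heq r hr) (heq x hx)

/-- `abelInv964 H` on `[a, ∞)` depends only on `H` on `[a, ∞)`. -/
theorem abelInv_congr_Ici964 {H H' : ℝ → ℂ} {a : ℝ} (hH : Differentiable ℝ H)
    (hH' : Differentiable ℝ H') (heq : ∀ r, a ≤ r → H r = H' r) (r : ℝ) (hr : a ≤ r) :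
    abelInv964 H r = abelInv964 H' r := by
  unfold abelInv964
  congr 1
  exact abelT_congr_Ici964 (fun x hx => deriv_eq_of_eqOn_Ici964 (hH x) (hH' x) heq hx) r hr

/-- **Forward direction**: for `g` smooth on `[1, ∞)` vanishing above `R`, the function
`t ↦ (A g)(cosh t)` is smooth, even, and vanishes when `cosh t > R`. -/
theorem abel_forward964 {R : ℝ} {g : ℝ → ℂ} (hg : SmoothOnIci964 1 g)
    (hv : VanishesAbove964 R g) :
    ContDiff ℝ ∞ (fun t : ℝ => abelT964 g (Real.cosh t)) ∧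
      IsEven964 (fun t : ℝ => abelT964 g (Real.cosh t)) ∧
      ∀ t : ℝ, R < Real.cosh t → abelT964 g (Real.cosh t) = 0 := by
  refine ⟨(hg.abelT hv).comp Real.contDiff_cosh Real.one_le_cosh, fun t => ?_, fun t ht => ?_⟩
  · change abelT964 g (Real.cosh (-t)) = abelT964 g (Real.cosh t)
    rw [Real.cosh_neg]
  · exact abelT_vanishesAbove964 hv _ ht

/-- **Existence, weight `0`**: a smooth even `F` vanishing for `|t| > T` is `t ↦ (A g)(cosh t)`
for a `g` of class `C¹` on `ℝ`, smooth on `[1, ∞)`, vanishing above `cosh T`. -/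
theorem abel_exists964 {F : ℝ → ℂ} (hF : ContDiff ℝ ∞ F) (he : IsEven964 F) {T : ℝ}
    (hT : ∀ t : ℝ, T < |t| → F t = 0) :
    ∃ g : ℝ → ℂ, ContDiff ℝ 1 g ∧ SmoothOnIci964 1 g ∧ VanishesAbove964 (Real.cosh T) g ∧
      ∀ t : ℝ, F t = abelT964 g (Real.cosh t) := by
  have hW := fun N : ℕ => whitney_cosh964 hF he N
  choose h hh hFh using hW
  have hv : ∀ N, VanishesAbove964 (Real.cosh T) (h N) :=
    fun N x hx => eq_zero_of_cosh_lt964 (hFh N) hT hx
  have hd : ∀ N, Differentiable ℝ (h (N + 1)) :=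
    fun N => (hh (N + 1)).differentiable (by exact_mod_cast Nat.succ_ne_zero N)
  have h2 : ContDiff ℝ 2 (h 2) := by exact_mod_cast hh 2
  refine ⟨abelInv964 (h 2), ?_, ?_, abelInv_vanishesAbove964 (hv 2), fun t => ?_⟩
  · have := contDiff_abelInv_nat964 1 (H := h 2) (hh 2) (hv 2)
    exact_mod_cast this
  · intro N
    refine ⟨abelInv964 (h (N + 1)), contDiff_abelInv_nat964 N (hh (N + 1)) (hv (N + 1)),
      fun r hr => ?_⟩
    exact abelInv_congr_Ici964 (hd N) (hd 1)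
      (fun x hx => eq_on_Ici_of_cosh964 (hFh (N + 1)) (hFh 2) x hx) r hr
  · rw [abelT_abelInv964 h2 (hv 2)]
    exact hFh 2 t

/-- **Uniqueness** (functions of class `C¹` on `ℝ`). -/
theorem abel_unique964 {g g' : ℝ → ℂ} {R R' : ℝ} (hg : ContDiff ℝ 1 g)
    (hg' : ContDiff ℝ 1 g') (hv : VanishesAbove964 R g) (hv' : VanishesAbove964 R' g')
    (h : ∀ t : ℝ, abelT964 g (Real.cosh t) = abelT964 g' (Real.cosh t)) :
    ∀ r : ℝ, 1 ≤ r → g r = g' r := by
  intro r hr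
  have hA : ∀ x : ℝ, 1 ≤ x → abelT964 g x = abelT964 g' x := by
    intro x hx
    have := h (Real.arcosh x)
    rwa [Real.cosh_arcosh hx] at this
  rw [← abelInv_abelT964 hg hv r, ← abelInv_abelT964 hg' hv' r]
  exact abelInv_congr_Ici964 (differentiable_abelT964 hg hv) (differentiable_abelT964 hg' hv')
    hA r hr

/-- **Uniqueness** (functions smooth on `[1, ∞)`). -/
theorem abel_unique_Ici964 {g g' : ℝ → ℂ} {R R' : ℝ} (hg : SmoothOnIci964 1 g)
    (hg' : SmoothOnIci964 1 g') (hv : VanishesAbove964 R g) (hv' : VanishesAbove964 R' g')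
    (h : ∀ t : ℝ, abelT964 g (Real.cosh t) = abelT964 g' (Real.cosh t)) :
    ∀ r : ℝ, 1 ≤ r → g r = g' r := by
  obtain ⟨k, hk, hke⟩ := hg 1
  obtain ⟨k', hk', hke'⟩ := hg' 1
  have hk1 : ContDiff ℝ 1 k := by exact_mod_cast hk
  have hk1' : ContDiff ℝ 1 k' := by exact_mod_cast hk'
  intro r hr
  rw [← hke r hr, ← hke' r hr]
  refine abel_unique964 hk1 hk1' (vanishesAbove_ext964 hv hke) (vanishesAbove_ext964 hv' hke')
    (fun t => ?_) r hr
  rw [abelT_congr_Ici964 hke _ (Real.one_le_cosh t),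
    abelT_congr_Ici964 hke' _ (Real.one_le_cosh t)]
  exact h t

/-! ## Weight one -/

theorem two_cosh_ne_zero964 (t : ℝ) : ((2 * Real.cosh (t / 2) : ℝ) : ℂ) ≠ 0 := by
  have : 0 < Real.cosh (t / 2) := Real.cosh_pos _
  exact_mod_cast (by positivity : (2 * Real.cosh (t / 2) : ℝ) ≠ 0)

/-- **Existence, weight `1`** (in terms of `G₁ = g₁ / √(ρ + 1)`): a smooth even `F` vanishing
for `|t| > T` is `t ↦ 2 cosh(t/2) (A G₁)(cosh t)`. -/
theorem abel_exists_wt1_964 {F : ℝ → ℂ} (hF : ContDiff ℝ ∞ F) (he : IsEven964 F) {T : ℝ}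
    (hT : ∀ t : ℝ, T < |t| → F t = 0) :
    ∃ G : ℝ → ℂ, ContDiff ℝ 1 G ∧ SmoothOnIci964 1 G ∧ VanishesAbove964 (Real.cosh T) G ∧
      ∀ t : ℝ, F t = ((2 * Real.cosh (t / 2) : ℝ) : ℂ) * abelT964 G (Real.cosh t) := by
  have hden : ContDiff ℝ ∞ (fun t : ℝ => ((2 * Real.cosh (t / 2) : ℝ) : ℂ)) := by
    have h1 : ContDiff ℝ ∞ (fun t : ℝ => 2 * Real.cosh (t / 2)) :=
      contDiff_const.mul (Real.contDiff_cosh.comp (contDiff_id.div_const 2))
    exact Complex.ofRealCLM.contDiff.comp h1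
  have hsm : ContDiff ℝ ∞ (fun t : ℝ => F t / ((2 * Real.cosh (t / 2) : ℝ) : ℂ)) := by
    simp only [div_eq_mul_inv]
    exact hF.mul (hden.inv two_cosh_ne_zero964)
  have hev : IsEven964 (fun t : ℝ => F t / ((2 * Real.cosh (t / 2) : ℝ) : ℂ)) := by
    intro t
    change F (-t) / ((2 * Real.cosh (-t / 2) : ℝ) : ℂ) = F t / ((2 * Real.cosh (t / 2) : ℝ) : ℂ)
    rw [he, neg_div, Real.cosh_neg]
  have hz : ∀ t : ℝ, T < |t| → (fun t : ℝ => F t / ((2 * Real.cosh (t / 2) : ℝ) : ℂ)) t = 0 := by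
    intro t ht
    change F t / _ = 0
    rw [hT t ht, zero_div]
  obtain ⟨G, hG1, hGs, hGv, hGF⟩ := abel_exists964 hsm hev hz
  refine ⟨G, hG1, hGs, hGv, fun t => ?_⟩
  rw [← hGF t]
  exact (mul_div_cancel₀ (F t) (two_cosh_ne_zero964 t)).symm

/-- A smooth function on `ℝ`, `≥ 1`, equal to `ρ + 1` on `[1, ∞)`. -/
def shiftExt964 (r : ℝ) : ℝ := 1 + Real.smoothTransition r * r

theorem contDiff_shiftExt964 : ContDiff ℝ ∞ shiftExt964 := by
  unfold shiftExt964
  exact contDiff_const.add (Real.smoothTransition.contDiff.mul contDiff_id)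

theorem one_le_shiftExt964 (r : ℝ) : 1 ≤ shiftExt964 r := by
  unfold shiftExt964
  rcases le_or_gt r 0 with h | h
  · rw [Real.smoothTransition.zero_of_nonpos h]
    simp
  · have := mul_nonneg (Real.smoothTransition.nonneg r) h.le
    linarith

theorem shiftExt_of_one_le964 {r : ℝ} (hr : 1 ≤ r) : shiftExt964 r = r + 1 := by
  unfold shiftExt964
  rw [Real.smoothTransition.one_of_one_le hr]
  ring

/-- `ρ ↦ √(ρ + 1)` is smooth on `[1, ∞)`. -/
theorem smoothOnIci_sqrt964 : SmoothOnIci964 1 (fun r : ℝ => ((Real.sqrt (r + 1) : ℝ) : ℂ)) := by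
  have h1 : ContDiff ℝ ∞ (fun r : ℝ => Real.sqrt (shiftExt964 r)) :=
    contDiff_shiftExt964.sqrt (fun r => by linarith [one_le_shiftExt964 r])
  have h2 : ContDiff ℝ ∞ (fun r : ℝ => ((Real.sqrt (shiftExt964 r) : ℝ) : ℂ)) :=
    Complex.ofRealCLM.contDiff.comp h1
  exact (smoothOnIci_of_contDiff964 1 h2).congr (fun r hr => by rw [shiftExt_of_one_le964 hr])

/-- **Existence, weight `1`** (in terms of `g₁ = √(ρ + 1) G₁`, the radial part of
`f₁ = conj(A)/|A| · g₁(ρ)`): a smooth even `F` vanishing for `|t| > T` is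
`t ↦ 2 cosh(t/2) ∫ g₁(cosh t + u²) / √(cosh t + u² + 1) du`. -/
theorem abel_exists_wt1'_964 {F : ℝ → ℂ} (hF : ContDiff ℝ ∞ F) (he : IsEven964 F) {T : ℝ}
    (hT : ∀ t : ℝ, T < |t| → F t = 0) :
    ∃ g : ℝ → ℂ, SmoothOnIci964 1 g ∧ VanishesAbove964 (Real.cosh T) g ∧
      ∀ t : ℝ, F t = ((2 * Real.cosh (t / 2) : ℝ) : ℂ) *
        ∫ u : ℝ, g (Real.cosh t + u ^ 2) / ((Real.sqrt (Real.cosh t + u ^ 2 + 1) : ℝ) : ℂ) := by
  obtain ⟨G, _, hGs, hGv, hGF⟩ := abel_exists_wt1_964 hF he hT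
  refine ⟨fun r => ((Real.sqrt (r + 1) : ℝ) : ℂ) * G r, smoothOnIci_sqrt964.mul hGs,
    fun x hx => by simp [hGv x hx], fun t => ?_⟩
  rw [hGF t]
  congr 1
  unfold abelT964
  congr 1
  funext u
  have hpos : 0 < Real.cosh t + u ^ 2 + 1 := by
    have := Real.cosh_pos t
    have := sq_nonneg u
    linarith
  have hne : ((Real.sqrt (Real.cosh t + u ^ 2 + 1) : ℝ) : ℂ) ≠ 0 := by
    exact_mod_cast (Real.sqrt_pos.mpr hpos).ne'
  field_simp

end Fermat.Agent.LT.T6.H964
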